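/-
GATE-H (S19) / node INST (helper85): the binder `harch` of the closure device
(`GH/Closure/Device.lean`) for a place `A` of `ℚ̄` over a prime `p`:

  `∀ x y : ℚ̄, A.valuation x < 1 → y ≠ 0 → ∃ n : ℕ, A.valuation x ^ n ≤ A.valuation y`.

`GP/Flat/Arch.lean` (helper96) has the form with `y = p`; the missing half is the LOWER bound
`v p ^ b ≤ v y` for `y ≠ 0` (an integer multiple `m • y⁻¹` is integral, hence of valuation `≤ 1`,
and `v m = v p ^ b` for `m = p ^ b * u`, `p ∤ u`).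
-/
import Mathlib
import Fermat.Agent.GP.Flat.Arch
import Fermat.Prelude.Def_FLTPrelim_Ramification

set_option autoImplicit false

namespace Fermat.Agent.GH.Inst

open Fermat.Agent.GP.Flat

section General

variable {K : Type*} [Field K] {Γ₀ : Type*} [LinearOrderedCommGroupWithZero Γ₀]
  (v : Valuation K Γ₀)

/-- a nonzero integer has valuation a power of `v p`. -/
theorem exists_map_intCast_eq_pow [CharZero K] {p : ℕ} (hp : p.Prime) (hvp : v (p : K) < 1)
    {m : ℤ} (hm : m ≠ 0) : ∃ b : ℕ, v (m : K) = v (p : K) ^ b := by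
  obtain ⟨b, u, hu, hmu⟩ := Nat.exists_eq_pow_mul_and_not_dvd (Int.natAbs_ne_zero.2 hm) p
    hp.ne_one
  refine ⟨b, ?_⟩
  have h1 : v (m : K) = v ((m.natAbs : ℤ) : K) := by
    rcases Int.natAbs_eq m with h | h
    · rw [← h]
    · conv_lhs => rw [h]
      rw [Int.cast_neg, v.map_neg]
  have h2 : ((m.natAbs : ℤ) : K) = (p : K) ^ b * ((u : ℤ) : K) := by
    rw [hmu]
    push_cast
    ring
  have h3 : v (((u : ℤ) : K)) = 1 :=
    Arch.map_intCast_eq_one v hp hvp (by exact_mod_cast hu)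
  rw [h1, h2, v.map_mul, v.map_pow, h3, mul_one]

/-- **lower bound**: a nonzero element algebraic over `ℤ` has valuation at least a power of
`v p`. -/
theorem exists_pow_le_map_of_isAlgebraic_int [CharZero K] {p : ℕ} (hp : p.Prime)
    (hvp : v (p : K) < 1) {y : K} (hyalg : IsAlgebraic ℤ y) (hy : y ≠ 0) :
    ∃ b : ℕ, v (p : K) ^ b ≤ v y := by
  obtain ⟨m, hm, hint⟩ := (IsAlgebraic.inv hyalg).exists_integral_multiple
  obtain ⟨b, hb⟩ := exists_map_intCast_eq_pow v hp hvp hm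
  refine ⟨b, ?_⟩
  have h1 : v (m • y⁻¹) ≤ 1 := by
    have hint' : IsIntegral v.integer (m • y⁻¹) := hint.tower_top
    exact (Valuation.mem_integer_iff v _).mp
      ((Valuation.integer.integers v).mem_of_integral hint')
  rw [zsmul_eq_mul, v.map_mul, map_inv₀, hb] at h1
  have hvy : v y ≠ 0 := (v.ne_zero_iff).2 hy
  calc v (p : K) ^ b = v (p : K) ^ b * (v y)⁻¹ * v y := by
        rw [mul_assoc, inv_mul_cancel₀ hvy, mul_one]
    _ ≤ 1 * v y := by gcongr
    _ = v y := one_mul _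

/-- **rank one**, general form: for `x`, `y` algebraic over `ℤ`, `v x < 1`, `y ≠ 0`, some power of
`v x` is at most `v y`. -/
theorem exists_pow_le_of_isAlgebraic_int [CharZero K] {p : ℕ} (hp : p.Prime)
    (hvp : v (p : K) < 1) {x y : K} (hxalg : IsAlgebraic ℤ x) (hyalg : IsAlgebraic ℤ y)
    (hx : v x < 1) (hy : y ≠ 0) : ∃ n : ℕ, v x ^ n ≤ v y := by
  obtain ⟨n, hn⟩ := Arch.exists_pow_le_of_isAlgebraic_int v hp hvp hxalg hx
  obtain ⟨b, hb⟩ := exists_pow_le_map_of_isAlgebraic_int v hp hvp hyalg hy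
  refine ⟨n * b, ?_⟩
  calc v x ^ (n * b) = (v x ^ n) ^ b := pow_mul _ _ _
    _ ≤ v (p : K) ^ b := pow_le_pow_left' hn b
    _ ≤ v y := hb

end General

/-- **the binder `harch`** of `GH/Closure/Device.lean`, for a place `A` of `ℚ̄` over `p`. -/
theorem harch (A : ValuationSubring (AlgebraicClosure ℚ)) {p : ℕ} (hp : p.Prime)
    (hA : A.LiesOverPrime p) :
    ∀ x y : AlgebraicClosure ℚ, A.valuation x < 1 → y ≠ 0 →
      ∃ n : ℕ, A.valuation x ^ n ≤ A.valuation y := by
  intro x y hx hy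
  have halg : ∀ z : AlgebraicClosure ℚ, IsAlgebraic ℤ z := fun z =>
    (IsFractionRing.isAlgebraic_iff ℤ ℚ _).2 ((AlgebraicClosure.isAlgebraic ℚ).isAlgebraic z)
  exact exists_pow_le_of_isAlgebraic_int A.valuation hp (A.mem_nonunits_iff.1 hA) (halg x)
    (halg y) hx hy

end Fermat.Agent.GH.Inst
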