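/-
GATE-H (S19) / node INST (helper85): the FRAME INSTANCE.

For a level `N`, a prime `ℓ ∤ N` (with the side conditions `ℓ = 2 → 3 ∣ N`, `ℓ = 3 → 2 ∣ N` of the
L-space gate) and a place `A` of `ℚ̄` over `ℓ`, the abstract frame of `GH/Vocab.lean`
(`R : RedData K F k Ft`, `H : LSpaceHyp R g c`, the function-field instances on both fibres,
`[Infinite k]`, `[IsAlgClosed K]`, `(n : ℤ) = g`, `harch`) is instantiated by
* `K = ℚ̄`, `F = modularFunctionFieldBar N`, `k = ResidueField A`;
* BAR frame  : `Ft = FresBar N A` (residue field of the Gauss valuation), `R = redDataBar N A`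
  (GJ/J1/Val/GaussRedData; this is the datum GAL/ORD talk about);
* FULL frame : `Ft = modularFunctionFieldFullC k N` (the prelude's special-fibre field),
  `R = redDataFull N A hle` (GJ/S37/Bridge).
`H` comes from `lSpaceGate` (+ `exists_lSpaceHyp_full`).
Everything here is a repackaging of theorems on main; the instances are THEOREMS (consumers
`have` them), as in `S37Bridge.reductionInputsModL`.
-/
import Fermat.Agent.GJ.S37.LSpaceGateProof
import Fermat.Agent.GJ.S37.BarToFull

set_option autoImplicit false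
set_option synthInstance.maxHeartbeats 400000
set_option maxHeartbeats 1000000

noncomputable section

open AlgebraicCurve ModularCurve

namespace Fermat.Agent.GH.Inst

open Fermat.Agent.RRh45 Fermat.Agent.GJ.J1 Fermat.Agent.GJ.J1.Val Fermat.Agent.GJ.S37LSpace
  Fermat.Agent.GJ.S37Bridge Fermat.Agent.GJ.S37BarToFull Fermat.Agent.S24

/-- `ℚ̄`. -/
local notation "Qb" => AlgebraicClosure ℚ

variable (N : ℕ) [NeZero N] (A : ValuationSubring Qb)

/-- the residue field of the place `A`. -/
abbrev kA : Type := IsLocalRing.ResidueField A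

/-! ### the coefficient fields -/

theorem isAlgClosed_kA : IsAlgClosed (kA A) :=
  Fermat.Agent.GJ.ResidueAlgClosed.isAlgClosed_residueField A

theorem infinite_kA : Infinite (kA A) := infinite_residueField (A := A)

/-! ### the generic fibre `ℚ̄(X₀(N))` -/

theorem finiteResidues_bar : FiniteResidues Qb (modularFunctionFieldBar N) :=
  haveI : IsGen Qb (jF N) := S24_helper62.isGen_jF N
  Fermat.Agent.GJ.FF.finiteResidues (K := Qb) (jF N)

theorem hasPrincipalDivisors_bar : HasPrincipalDivisors Qb (modularFunctionFieldBar N) :=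
  inferInstance

theorem nonempty_place_bar : Nonempty (Place Qb (modularFunctionFieldBar N)) :=
  inferInstance

/-! ### the special fibre, BAR frame: `FresBar N A` with generator `τ = red j` -/

/-- `τ = red j`. -/
def tau : FresBar N A :=
  (redDataBar N A).red ⟨jF N, Fermat.Agent.GJ.J1.Haupt.jF_mem_Rw N A⟩

theorem transcendental_tau : Transcendental (kA A) (tau N A) := by
  apply Fres.transcendental_of_coe
  rw [tau, Fermat.Agent.GJ.J1.Haupt.coe_red_jF]
  exact transcendental_jqModC _

/-- `FresBar N A` is a function field in one variable over the residue field, generated by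
`τ`. -/
theorem isGen_tau : IsGen (kA A) (tau N A) := by
  have : IsGen Qb (jF N) := S24_helper62.isGen_jF N
  exact ⟨transcendental_tau N A,
    (Fermat.Agent.GJ.S37.ResDeg.RedData.finrank_red_le (redDataBar N A)
      (Fermat.Agent.GJ.J1.Haupt.jF_mem_Rw N A) (transcendental_tau N A)).1⟩

theorem finiteResidues_fresBar : FiniteResidues (kA A) (FresBar N A) :=
  have := isGen_tau N A
  have := isAlgClosed_kA A
  Fermat.Agent.GJ.FF.finiteResidues (tau N A)

theorem hasPrincipalDivisors_fresBar : HasPrincipalDivisors (kA A) (FresBar N A) :=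
  have := isGen_tau N A
  have := isAlgClosed_kA A
  Fermat.Agent.GJ.FF.PrincipalOf.hasPrincipalDivisors_gen (tau N A)

theorem nonempty_place_fresBar : Nonempty (Place (kA A) (FresBar N A)) :=
  have := isGen_tau N A
  have := isAlgClosed_kA A
  Fermat.Agent.GJ.FF.nonempty_place (tau N A)

/-! ### the special fibre, FULL frame: the prelude's `modularFunctionFieldFullC k N` -/

theorem finiteResidues_fib : FiniteResidues (kA A) (modularFunctionFieldFullC (kA A) N) :=
  Fermat.Agent.GJ.FF.Fibre.finiteResidues_fibre (k := kA A) N A (IsLocalRing.residue A)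

theorem hasPrincipalDivisors_fib :
    HasPrincipalDivisors (kA A) (modularFunctionFieldFullC (kA A) N) :=
  Fermat.Agent.GJ.FF.Fibre.hasPrincipalDivisors_fibre' (k := kA A) N A (IsLocalRing.residue A)

theorem nonempty_place_fib : Nonempty (Place (kA A) (modularFunctionFieldFullC (kA A) N)) :=
  Fermat.Agent.GJ.FF.Fibre.nonempty_place_fibre' (k := kA A) N A (IsLocalRing.residue A)

/-! ### the reduction data and the L-space hypotheses -/

/-- **BAR frame**: `LSpaceHyp (redDataBar N A) g c` for some `g c`, at every place `A` over a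
prime `ℓ ∤ N` (`3 ∣ N` if `ℓ = 2`, `2 ∣ N` if `ℓ = 3`).  (`= lSpaceGate`, restated.) -/
theorem exists_lSpaceHyp_bar {ℓ : ℕ} (hℓ : ℓ.Prime) (hℓN : ¬ ℓ ∣ N) (h2 : ℓ = 2 → 3 ∣ N)
    (h3 : ℓ = 3 → 2 ∣ N) (hA : A.LiesOverPrime ℓ) :
    ∃ g c : ℤ, LSpaceHyp (redDataBar N A) g c :=
  Fermat.Agent.GJ.S37LSpaceGate.lSpaceGate N hℓ hℓN h2 h3 A hA

/-- the reduction datum of the FULL frame (target = the prelude's special-fibre field). -/
abbrev redDataH {ℓ : ℕ} [Fact ℓ.Prime] (hℓN : ¬ ℓ ∣ N) (hA : A.LiesOverPrime ℓ) :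
    RedData Qb (modularFunctionFieldBar N) (kA A) (modularFunctionFieldFullC (kA A) N) :=
  redDataFull N A (Res.FresBar_le_fullC N A hℓN hA)

/-- **FULL frame**: `LSpaceHyp (redDataH N A hℓN hA) g c` for some `g c`. -/
theorem exists_lSpaceHyp_full {ℓ : ℕ} [Fact ℓ.Prime] (hℓN : ¬ ℓ ∣ N) (h2 : ℓ = 2 → 3 ∣ N)
    (h3 : ℓ = 3 → 2 ∣ N) (hA : A.LiesOverPrime ℓ) :
    ∃ g c : ℤ, LSpaceHyp (redDataH N A hℓN hA) g c := by
  obtain ⟨g, c, H⟩ := exists_lSpaceHyp_bar N A Fact.out hℓN h2 h3 hA
  exact ⟨g, c, Fermat.Agent.GJ.S37BarToFull.exists_lSpaceHyp_full hℓN hA H⟩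

/-- the valuation ring of both frames is `A` itself (definitionally). -/
theorem redDataBar_A : (redDataBar N A).A = A := rfl

theorem redDataH_A {ℓ : ℕ} [Fact ℓ.Prime] (hℓN : ¬ ℓ ∣ N) (hA : A.LiesOverPrime ℓ) :
    (redDataH N A hℓN hA).A = A := rfl

end Fermat.Agent.GH.Inst
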