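/-
GATE-H (S19) / node INST (helper85): THE FRAME OF THE GATE, assembled.

For `N`, a prime `ℓ ∤ N` (`3 ∣ N` if `ℓ = 2`, `2 ∣ N` if `ℓ = 3`) and a place `A` of `ℚ̄` over `ℓ`:

* `exists_frame_bar`  : `∃ g c n, LSpaceHyp (redDataBar N A) g c ∧ (n : ℤ) = g`
* `exists_frame_full` : the same for `redDataH N A hℓN hA` (prelude special fibre)
* `harch_bar`, `harch_full` : the binder `harch` of the closure device for `R.A`
* `charP_kA` : the residue characteristic
* a PLUG TEST: the contracts `CoordSpec`, `ChartSupply`, `AddSpec` of `GH/Vocab.lean` elaborate in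
  both frames with the instance theorems of `Frame.lean`.

USAGE (consumer side, e.g. TOP):
```
  obtain ⟨g, c, n, H, hn⟩ := exists_frame_bar N A hℓ hℓN h2 h3 hA
  have := finiteResidues_bar N;  have := hasPrincipalDivisors_bar N;  have := nonempty_place_bar N
  have := finiteResidues_fresBar N A;  have := hasPrincipalDivisors_fresBar N A
  have := nonempty_place_fresBar N A;  have := infinite_kA A;  have := isAlgClosed_kA A
```
-/
import Fermat.Agent.GH.Inst.Frame
import Fermat.Agent.GH.Inst.Genus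
import Fermat.Agent.GH.Inst.Arch
import Fermat.Agent.GH.Vocab

set_option autoImplicit false
set_option synthInstance.maxHeartbeats 400000
set_option maxHeartbeats 1000000

noncomputable section

open AlgebraicCurve ModularCurve

namespace Fermat.Agent.GH.Inst

open Fermat.Agent.RRh45 Fermat.Agent.GJ.J1 Fermat.Agent.GJ.J1.Val Fermat.Agent.GJ.S37LSpace
  Fermat.Agent.GJ.S37Bridge Fermat.Agent.GJ.S37BarToFull Fermat.Agent.S24

/-- `ℚ̄`. -/
local notation "Qb" => AlgebraicClosure ℚ

variable (N : ℕ) [NeZero N] (A : ValuationSubring Qb)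

/-- the residue field of a place over `ℓ` has characteristic `ℓ`. -/
theorem charP_kA {ℓ : ℕ} (hℓ : ℓ.Prime) (hA : A.LiesOverPrime ℓ) : CharP (kA A) ℓ :=
  Fermat.Agent.GJ.Kum.charP_residueField A hℓ hA

/-- **INST, BAR frame**: the L-space hypotheses for `redDataBar N A` with a genus that is a
natural number. -/
theorem exists_frame_bar {ℓ : ℕ} (hℓ : ℓ.Prime) (hℓN : ¬ ℓ ∣ N) (h2 : ℓ = 2 → 3 ∣ N)
    (h3 : ℓ = 3 → 2 ∣ N) (hA : A.LiesOverPrime ℓ) :
    ∃ (g c : ℤ) (n : ℕ), LSpaceHyp (redDataBar N A) g c ∧ (n : ℤ) = g := by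
  obtain ⟨g, c, H⟩ := exists_lSpaceHyp_bar N A hℓ hℓN h2 h3 hA
  have := finiteResidues_bar N
  have := hasPrincipalDivisors_bar N
  have := nonempty_place_bar N
  obtain ⟨n, hn⟩ := lSpaceHyp_exists_nat_eq H
  exact ⟨g, c, n, H, hn⟩

/-- **INST, FULL frame**: the same for the datum with values in the prelude's special fibre. -/
theorem exists_frame_full {ℓ : ℕ} [Fact ℓ.Prime] (hℓN : ¬ ℓ ∣ N) (h2 : ℓ = 2 → 3 ∣ N)
    (h3 : ℓ = 3 → 2 ∣ N) (hA : A.LiesOverPrime ℓ) :
    ∃ (g c : ℤ) (n : ℕ), LSpaceHyp (redDataH N A hℓN hA) g c ∧ (n : ℤ) = g := by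
  obtain ⟨g, c, H⟩ := exists_lSpaceHyp_full N A hℓN h2 h3 hA
  have := finiteResidues_bar N
  have := hasPrincipalDivisors_bar N
  have := nonempty_place_bar N
  obtain ⟨n, hn⟩ := lSpaceHyp_exists_nat_eq H
  exact ⟨g, c, n, H, hn⟩

/-- the binder `harch` for the valuation ring of the BAR frame. -/
theorem harch_bar {ℓ : ℕ} (hℓ : ℓ.Prime) (hA : A.LiesOverPrime ℓ) :
    ∀ x y : Qb, (redDataBar N A).A.valuation x < 1 → y ≠ 0 →
      ∃ n : ℕ, (redDataBar N A).A.valuation x ^ n ≤ (redDataBar N A).A.valuation y :=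
  harch A hℓ hA

/-- the binder `harch` for the valuation ring of the FULL frame. -/
theorem harch_full {ℓ : ℕ} [Fact ℓ.Prime] (hℓN : ¬ ℓ ∣ N) (hA : A.LiesOverPrime ℓ) :
    ∀ x y : Qb, (redDataH N A hℓN hA).A.valuation x < 1 → y ≠ 0 →
      ∃ n : ℕ, (redDataH N A hℓN hA).A.valuation x ^ n ≤ (redDataH N A hℓN hA).A.valuation y :=
  harch A Fact.out hA

/-! ### plug test: the contracts of `GH/Vocab.lean` elaborate in both frames -/

section PlugTest

variable {g c : ℤ}

example (H : LSpaceHyp (redDataBar N A) g c) (n : ℕ) : Prop :=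
  have := finiteResidues_bar N
  have := hasPrincipalDivisors_bar N
  have := nonempty_place_bar N
  have := finiteResidues_fresBar N A
  have := hasPrincipalDivisors_fresBar N A
  have := nonempty_place_fresBar N A
  have := infinite_kA A
  CoordSpec H n ∧ ChartSupply H n ∧ AddSpec H n

example {ℓ : ℕ} [Fact ℓ.Prime] (hℓN : ¬ ℓ ∣ N) (hA : A.LiesOverPrime ℓ)
    (H : LSpaceHyp (redDataH N A hℓN hA) g c) (n : ℕ) : Prop :=
  have := finiteResidues_bar N
  have := hasPrincipalDivisors_bar N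
  have := nonempty_place_bar N
  have := finiteResidues_fib N A
  have := hasPrincipalDivisors_fib N A
  have := nonempty_place_fib N A
  have := infinite_kA A
  CoordSpec H n ∧ ChartSupply H n ∧ AddSpec H n

end PlugTest

end Fermat.Agent.GH.Inst
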