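/-
GATE-H (S19) / node INST (helper85): the genus of an `LSpaceHyp` is a natural number.

* `g_nonneg_of_rr` : Riemann's theorem in the `rrF` shape (all places of degree one) forces `0 ≤ g`
  (`l(nP) ≤ n + 1` by induction, `l(nP) = n + 1 - g` for `n ≥ c`).
* `lSpaceHyp_g_nonneg`, `lSpaceHyp_exists_nat_eq` : the binder `(n : ℤ) = g` of ADD / ORD.
-/
import Mathlib
import Fermat.Agent.GH.G6.Family
import Fermat.Agent.GJ.S37.LSpaceRed

set_option autoImplicit false

noncomputable section

open AlgebraicCurve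

namespace Fermat.Agent.GH.Inst

open Fermat.Agent.RRh45 Fermat.Agent.GJ.S37MinDiv Fermat.Agent.GJ.J1 Fermat.Agent.GJ.S37LSpace
  Fermat.Agent.GH.G6

section Abstract

variable {K F : Type*} [Field K] [Field F] [Algebra K F]
variable [FiniteResidues K F] [HasPrincipalDivisors K F] [Nonempty (Place K F)]

/-- `l(nP) ≤ n + 1` for a place `P` of degree one. -/
theorem finrank_nsmul_single_le (P : Place K F) (hP : P.deg = 1) (n : ℕ) :
    Module.finrank K (riemannRochSpace (n • Finsupp.single P (1 : ℤ))) ≤ n + 1 := by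
  induction n with
  | zero =>
    rw [zero_smul, finrank_riemannRochSpace_zero P hP]
  | succ n ih =>
    have h1 := (finite_step ((n + 1) • Finsupp.single P (1 : ℤ)) P).2
    have h2 : (n + 1) • Finsupp.single P (1 : ℤ) - Finsupp.single P 1 =
        n • Finsupp.single P (1 : ℤ) := by
      rw [succ_nsmul, add_sub_cancel_right]
    rw [h2, hP] at h1
    omega

/-- **the genus is non-negative**: Riemann's theorem in the `rrF` shape forces `0 ≤ g`. -/
theorem g_nonneg_of_rr (hdeg : ∀ P : Place K F, P.deg = 1) {g c : ℤ}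
    (rr : ∀ E : Divisor K F, c ≤ Divisor.degree E →
      (Module.finrank K (riemannRochSpace E) : ℤ) = Divisor.degree E + 1 - g) : 0 ≤ g := by
  obtain ⟨P⟩ := ‹Nonempty (Place K F)›
  set n := c.toNat with hn
  have hdegn : Divisor.degree (n • Finsupp.single P (1 : ℤ)) = n := by
    rw [map_nsmul, Divisor.degree_single, hdeg P]
    simp
  have h1 := rr (n • Finsupp.single P (1 : ℤ)) (by rw [hdegn]; exact Int.self_le_toNat c)
  have h2 := finrank_nsmul_single_le P (hdeg P) n
  rw [hdegn] at h1
  have h3 : (Module.finrank K (riemannRochSpace (n • Finsupp.single P (1 : ℤ))) : ℤ) ≤ n + 1 := by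
    exact_mod_cast h2
  omega

end Abstract

section Frame

variable {K F k Ft : Type*} [Field K] [Field F] [Algebra K F] [Field k] [Field Ft] [Algebra k Ft]
variable {R : RedData K F k Ft} {g c : ℤ}
variable [FiniteResidues K F] [HasPrincipalDivisors K F] [Nonempty (Place K F)]

/-- the genus of an `LSpaceHyp` is non-negative. -/
theorem lSpaceHyp_g_nonneg (H : LSpaceHyp R g c) : 0 ≤ g :=
  g_nonneg_of_rr H.degF H.rrF

/-- the binder `(n : ℤ) = g` of the gate: the genus of an `LSpaceHyp` is a natural number. -/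
theorem lSpaceHyp_exists_nat_eq (H : LSpaceHyp R g c) :
    ∃ n : ℕ, (n : ℤ) = g :=
  ⟨g.toNat, Int.toNat_of_nonneg (lSpaceHyp_g_nonneg H)⟩

end Frame

end Fermat.Agent.GH.Inst
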